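import Fermat.Agent.AtG.Res
import Fermat.Agent.AtS.Final
import Fermat.Agent.MazurP.Toric3
import Fermat.Agent.MazurP.NewP

/-!
# Inertia at `p` on the eigenspace
-/

set_option autoImplicit false
set_option linter.unusedSectionVars false
set_option linter.style.haveILetI false
set_option linter.unusedVariables false
set_option synthInstance.maxHeartbeats 400000

noncomputable section

namespace Fermat.Agent.AtG

open ModularCurve Fermat.Agent.GoodRed Fermat.Agent.Models Fermat.Agent.ModFun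
open Fermat.Agent.Curves AlgebraicCurve IsLocalRing Fermat.Agent.SSMod
open Fermat.Agent.HeckeQ Fermat.Agent.Mono Fermat.Agent.MazurP Fermat.Agent.AtP
open Fermat.Agent.AnJac Fermat.Agent.GalRep Fermat.Agent.S43Glue CuspForm Matrix
open Fermat.Agent.AnJacH (Nq coe_Nq UmN)

local notation "ℒ" => LaurentSeries
local notation "Qbar" => AlgebraicClosure ℚ
local notation "GQ" => Qbar ≃ₐ[ℚ] Qbar

section General

variable {K κ : Type*} [Field K] [Field κ] {A : ValuationSubring K} {π : A →+* κ}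
  {q M : ℕ} [NeZero M] [IsLocalHom π] [hq : Fact q.Prime] [CharP κ q]
  [IsAlgClosed K] [IsAlgClosed κ] [CharZero K] [NeZero q]

attribute [-instance] DivisionRing.toRatAlgebra

variable [IsFunctionField K (modularFunctionFieldFullC K (q * M))]
  [IsFunctionField κ (modularFunctionFieldFullC κ M)]

/-- inertia acts through the cyclotomic character on classes with `U² = 1` and trivial residues -/
theorem core_p [Algebra ℚ K] [Algebra.IsAlgebraic ℚ K] [Algebra.IsAlgebraic ℤ K]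
    (hπ : Function.Surjective π) (ι : K →+* ℂ) (hqM : Nat.Coprime q M)
    (hE : modularFunctionFieldFullC κ M = resField q hπ (q * M))
    (hA : A.LiesOverPrime q) (hr : GoodRed.RankOne π) (h : JLift π M)
    [HasPrim A q] [HasPrim K q] {τ : K ≃+* K} (hτ : ActsAt π τ (RingEquiv.refl κ))
    {U : modularFunctionFieldFullC K (q * M) → modularFunctionFieldFullC K (q * M)}
    (hU : ∀ u, (U u : ℒ K) = hW q (u : ℒ K)) {a : ℕ}
    (ha : ∀ ζ : K, ζ ^ q = 1 → τ ζ = ζ ^ a)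
    {u g g' : modularFunctionFieldFullC K (q * M)} (hu : u ≠ 0)
    (h1 : U (U u) = u * g ^ q) (h2 : U (U (al ι hqM u)) = al ι hqM u * g' ^ q)
    (hr1 : ∃ c : K, c ≠ 0 ∧ ∃ h : modularFunctionFieldFullC κ M, h ≠ 0 ∧
      (two hπ ι hqM _ hE true).r (algebraMap K _ c * u) = h ^ q)
    (hr2 : ∃ c : K, c ≠ 0 ∧ ∃ h : modularFunctionFieldFullC κ M, h ≠ 0 ∧
      (two hπ ι hqM _ hE false).r (algebraMap K _ c * u) = h ^ q)
    (hdiv : ∀ P : Place K (modularFunctionFieldFullC K (q * M)), (q : ℤ) ∣ P.ord u) :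
    ∃ f, galF (q * M) τ u / u ^ a = f ^ q := by
  have hm := nodeModel (hπ := hπ) ι hqM hE hA hr h
  have hmem : ∀ x ∈ modularFunctionFieldFullC K (q * M),
      hW q x ∈ modularFunctionFieldFullC K (q * M) := by
    intro x hx
    have := (U ⟨x, hx⟩).2
    rwa [hU] at this
  have eU : ∀ x : modularFunctionFieldFullC K (q * M),
      hW q (hW q (x : ℒ K)) = ((U (U x) : modularFunctionFieldFullC K (q * M)) : ℒ K) := by
    intro x
    rw [hU, hU]
  have hn : q = q ^ 1 := (pow_one q).symm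
  have s1 : Split (two hπ ι hqM _ hE) true q u := by
    refine split_true ι hqM _ hE hr hmem hn hu (f := g) ?_ hr1
    rw [eU, h1]; rfl
  have s2 : Split (two hπ ι hqM _ hE) false q u := by
    refine split_false ι hqM _ hE hr hmem hn hu (f := g') ?_ hr2
    rw [eU, h2]; rfl
  have hin := inertial (hπ := hπ) ι hqM hE hA hτ
  have hin' := inertial (hπ := hπ) ι hqM hE hA hτ.symm
  rw [placeE_symm] at hin'
  have hqA : (q : K) ∈ (baseRes π hπ).O := natCast_mem _ q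
  refine toric hm hq.out.ne_zero hin hin' (galF_t hqM h τ) ha hqA
    (by exact_mod_cast hq.out.ne_zero) ?_ (fun i => ?_) hdiv
  · rw [baseRes_r π hπ hqA]
    have : (⟨(q : K), hqA⟩ : A) = (q : A) := Subtype.ext (by simp)
    rw [this, map_natCast]
    exact CharP.cast_eq_zero κ q
  · cases i
    · exact s2
    · exact s1

end General

section Pic

variable (κ : Type) [Field κ] (q M : ℕ) [NeZero M] [hq : Fact q.Prime] [CharP κ q]
  [IsAlgClosed κ] [NeZero q] [Algebra (ZMod q) κ] [Algebra.IsAlgebraic (ZMod q) κ]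
  [IsFunctionField κ (modularFunctionFieldFullC κ M)]

/-- the input **PIC0** -/
def PicH {S : Set ℕ} (hqS : q ∈ S) : Prop :=
  ∀ (P : FreeAlgebra ℤ (JS S)), lat M P = 0 → ∀ {v : (ℒ κ)ˣ}
    (hv : (v : ℒ κ) ∈ modularFunctionFieldFullC κ M),
    (∀ 𝔭 : Place κ (modularFunctionFieldFullC κ M), (q : ℤ) ∣ 𝔭.ord ⟨v, hv⟩) →
    ∃ g : modularFunctionFieldFullC κ M, g ≠ 0 ∧
      (op (hasPrim_κ hqS) P v : ℒ κ) = (g : ℒ κ) ^ q

end Pic

section Act

variable {A : ValuationSubring Qbar} {q M : ℕ} [hq : Fact q.Prime] [NeZero q] [NeZero M]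
  [NeZero (q * M)] {S : Set ℕ} {hSN : ∀ i : JS S, ¬ i.1 ∣ q * M}
  {θ : heckeAlgebra (q * M) 2 S →+* ZMod q}

attribute [-instance] DivisionRing.toRatAlgebra in
set_option maxHeartbeats 1600000 in
/-- **Inertia at `p` acts on the eigenspace through the cyclotomic character.** -/
theorem act_eq_smul (hq5 : 5 ≤ q) (hA : A.LiesOverPrime q)
    (hqM : Nat.Coprime q M) (hqS : q ∈ S)
    [CharP (ResidueField A) q] [Algebra (ZMod q) (ResidueField A)]
    [Algebra.IsAlgebraic (ZMod q) (ResidueField A)]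
    [IsFunctionField (ResidueField A) (modularFunctionFieldFullC (ResidueField A) M)]
    (hpic : PicH (ResidueField A) q M hqS)
    (heis : ∃ (r : ℕ) (hr : r.Prime) (hrS : r ∉ S),
      θ (hkA (q * M) hSN (FreeAlgebra.ι ℤ ⟨r, hr, hrS⟩)) ≠ 1 + (r : ZMod q))
    {P : FreeAlgebra ℤ (JS S)} (hP : lat M P = 0) (hP1 : θ (hkA (q * M) hSN P) = 1)
    {Γ : Subgroup GQ} (hΓI : Γ ≤ A.inertiaSubgroupIn ℚ)
    (hfin : (Γ.subgroupOf (A.inertiaSubgroupIn ℚ)).FiniteIndex)
    (hFU : ∀ b : Qbar, b ≠ 0 → (∀ σ ∈ A.inertiaSubgroupIn ℚ, σ (b ^ q) = b ^ q) →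
      (∀ σ ∈ Γ, σ b = b) → ∃ l : ℤ, A.valuation (b * (q : Qbar) ^ l) = 1)
    {x : Fin (rk (q * M)) → ZMod q} (hx : x ∈ WW hSN θ)
    (hΓx : ∀ σ ∈ Γ, (KQ (q * M)).M (bL (q * M)) (pne q) σ *ᵥ x = x)
    {τ : GQ} (hτ : τ ∈ A.inertiaSubgroupIn ℚ) {a : ℕ}
    (ha : ∀ ζ : Qbar, ζ ^ q = 1 → τ ζ = ζ ^ a) :
    (KQ (q * M)).M (bL (q * M)) (pne q) τ *ᵥ x = (a : ZMod q) • x := by
  haveI : Algebra.IsAlgebraic ℚ Qbar := AlgebraicClosure.isAlgebraic ℚ
  haveI : @Algebra.IsAlgebraic ℤ Qbar _ _ (Ring.toIntAlgebra Qbar) := algebraic_int_Qbar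
  have hrk : RankOne (residue A) := @rankOne_of_liesOver Qbar _ A _ algebraic_int_Qbar q hq.out hA
  haveI := isFunctionField_fullC Qbar (q * M) (by exact_mod_cast NeZero.ne (q * M))
  have hE := (resField_eq (q := q) (π := residue A) residue_surjective ιQ hqM hrk).symm
  have hqM' : ¬ q ∣ M := (Nat.Prime.coprime_iff_not_dvd hq.out).1 hqM
  have hSM : ∀ i : JS S, ¬ i.1 ∣ M := fun i h => hSN i (h.mul_left q)
  haveI : HasPrim Qbar q := hasPrim_K
  haveI : HasPrim A q := hasPrim_val' A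
  have hJ := jLift_of_five (π := residue A) residue_surjective ιQ hqM hq5
  obtain ⟨ζ, hζ⟩ := exists_zeta q
  have hU : ∀ u : modularFunctionFieldFullC Qbar (q * M),
      ((FU ιQ (dvd_mul_right q M) hζ u : modularFunctionFieldFullC Qbar (q * M)) : ℒ Qbar) =
        hW q (u : ℒ Qbar) := fun u => by
    rw [← AnJacH.heckeW_eq_hW hζ]; rfl
  -- the class
  obtain ⟨u, φ, hu, hφ⟩ := (KQ (q * M)).exists_cls (bL (q * M)) (pne q) x
  have hu0 := (KQ (q * M)).ne_zero hu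
  have hC : (KQ (q * M)).Cls (bL (q * M)) q u x := ⟨φ, hu, hφ⟩
  have hdvd : ∀ P : Place Qbar (modularFunctionFieldFullC Qbar (q * M)), (q : ℤ) ∣ P.ord u :=
    fun v => ClX.dvd_ord ιQ hu v
  have hcoe : ∀ (σ : GQ) (a : modularFunctionFieldFullC Qbar (q * M)),
      (KQ (q * M)).act σ a = galF (q * M) (σ : Qbar ≃+* Qbar) a := fun σ a => Subtype.ext rfl
  have hΓ : ∀ σ ∈ Γ, ∃ f : modularFunctionFieldFullC Qbar (q * M), f ≠ 0 ∧
      galF (q * M) (σ : Qbar ≃+* Qbar) u = u * f ^ q := by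
    intro σ hσ
    have h1 := hC.act (pne q) σ
    rw [hΓx σ hσ] at h1
    obtain ⟨g, hg0, hg⟩ := h1.exists_pow (pne q) hC
    exact ⟨g, hg0, by rw [← hcoe, hg]⟩
  -- `U² = 1`
  obtain ⟨g1, hg1, e1⟩ := exists_UU hqM hP hP1 hx hC hζ
  obtain ⟨Wm, hWm⟩ := AnJacH.exists_alMat (q := q) (M := M) hqM (pne q)
  obtain ⟨g2, hg2, e2⟩ := exists_UU hqM hP hP1 (W_stable hqM hWm hx) (hWm u x hC) hζ
  -- slopes
  have hsl := AtS.slopes_at_p hA hqM ιQ hE hrk hJ hU hΓI hfin hFU hu0 hg1 hg2 hΓ e1 e2 hdvd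
  -- non-Eisenstein
  have hso : ∀ (i : Bool) (𝔭 : Place (ResidueField A) (modularFunctionFieldFullC
      (ResidueField A) M)), (q : ℤ) ∣ so (two residue_surjective ιQ hqM _ hE i) 𝔭 u := by
    obtain ⟨r, hr, hrS, hne⟩ := heis
    haveI : NeZero r := ⟨hr.ne_zero⟩
    haveI : Fact r.Prime := ⟨hr⟩
    haveI : HasPrim Qbar r := hasPrim_K
    haveI : HasPrim A r := hasPrim_val' A
    have hrN : ¬ r ∣ q * M := hSN ⟨r, hr, hrS⟩
    have hrκ : (r : ResidueField A) ≠ 0 := by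
      rw [Ne, CharP.cast_eq_zero_iff _ q]
      intro h1
      exact hrN (((Nat.prime_dvd_prime_iff_eq hq.out hr).mp h1 ▸ dvd_refl _ : r ∣ q).mul_right M)
    haveI : HasPrim (ResidueField A) r := hasPrim_alg hr.ne_zero hrκ
    haveI : NeZero q := ⟨pne q⟩
    set b : ZMod q := θ (hkA (q * M) hSN (FreeAlgebra.ι ℤ ⟨r, hr, hrS⟩)) with hb
    have h1 := isMat_HV hSN ⟨r, hr, hrS⟩ _ _ hC
    rw [hx ⟨r, hr, hrS⟩, ← hb] at h1
    have h2 := hC.npow (pne q) b.val
    have h3 : b.val • x = b • x := by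
      ext i
      rw [Pi.smul_apply, Pi.smul_apply, nsmul_eq_mul, ZMod.natCast_zmod_val, smul_eq_mul]
    rw [h3] at h2
    obtain ⟨g, hg0, hg⟩ := h1.exists_pow (pne q) h2
    refine slope_zero_of residue_surjective ιQ hqM hE hA hrk hJ hr hrN hq.out hq5 hu0 hg0
      (x := hMf hSN ⟨r, hr, hrS⟩ u) (a := b.val) rfl hg ?_ hdvd hsl
    intro h
    apply hne
    have h4 : (((r + 1 : ℤ) - (b.val : ℤ) : ℤ) : ZMod q) = 0 :=
      (ZMod.intCast_zmod_eq_zero_iff_dvd _ _).mpr h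
    push_cast at h4
    rw [ZMod.natCast_zmod_val] at h4
    linear_combination -h4
  -- residues
  have huL : (u : ℒ Qbar) ≠ 0 := fun h => hu0 (Subtype.ext h)
  set uU : (ℒ Qbar)ˣ := Units.mk0 (u : ℒ Qbar) huL with huU
  have hum : (uU : ℒ Qbar) ∈ modularFunctionFieldFullC Qbar (q * M) := u.2
  obtain ⟨hm', hcl'⟩ := cl_op hasPrim_field hSN ιQ (pne q) P
    (show ClU (q * M) ιQ q φ uU from ⟨u.2, hu⟩)
  have h2 : (KQ (q * M)).Cls (bL (q * M)) q ⟨(op hasPrim_field P uU : ℒ Qbar), hm'⟩ x := by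
    refine ⟨_, hcl', ?_⟩
    rw [← HV_mulVec, hφ, WW_all hx, hP1, one_smul]
  obtain ⟨g, hg0, hg⟩ := h2.exists_pow (pne q) hC
  have hg0' : (g : ℒ Qbar) ≠ 0 := fun h => hg0 (Subtype.ext h)
  have hop : op hasPrim_field P uU = uU * (Units.mk0 (g : ℒ Qbar) hg0') ^ q := by
    apply Units.ext
    rw [Units.val_mul, Units.val_pow_eq_pow_val, Units.val_mk0]
    exact congrArg Subtype.val hg
  have r1 := resPow_gen ιQ hqM hE hqS (pne q) P (hpic P hP) hum (f := Units.mk0 _ hg0') g.2 hop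
    (hso true)
  have r2 := resPow_gen_false ιQ hqM hE hqS hSN (pne q) P (hpic P hP) hum
    (f := Units.mk0 _ hg0') g.2 hop (hso false)
  obtain ⟨f, hf⟩ := core_p residue_surjective ιQ hqM hE hA hrk hJ
    (actsAt_inertia hτ) hU ha hu0 e1 e2 r1 r2 hdvd
  -- conclusion
  have h5 := KSys.Cls.div (pne q) (hC.act (pne q) τ) (KSys.Cls.npow (pne q) hC a)
  have e : (KQ (q * M)).act τ u / u ^ a = f ^ q := by rw [hcoe]; exact hf
  have hf0 : f ≠ 0 := by
    rintro rfl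
    rw [zero_pow (pne q)] at e
    exact (div_ne_zero ((map_ne_zero _).mpr hu0) (pow_ne_zero _ hu0)) e
  rw [e] at h5
  have h6 := h5.unique (pne q) (KSys.cls_pow (pne q) hf0)
  rw [sub_eq_zero.mp h6]
  ext i
  rw [Pi.smul_apply, Pi.smul_apply, nsmul_eq_mul, smul_eq_mul]

end Act

end Fermat.Agent.AtG
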