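import Fermat.Agent.AtG.Main

/-!
# Level lowering at `p` for Frey curves
-/

set_option autoImplicit false
set_option linter.unusedSectionVars false
set_option linter.style.haveILetI false
set_option linter.unusedVariables false
set_option synthInstance.maxHeartbeats 400000

noncomputable section

namespace Fermat.Agent.AtG

open ModularCurve Fermat.Agent.GoodRed Fermat.Agent.Models Fermat.Agent.ModFun
open Fermat.Agent.Curves AlgebraicCurve IsLocalRing Fermat.Agent.SSMod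
open Fermat.Agent.HeckeQ Fermat.Agent.Mono Fermat.Agent.MazurP Fermat.Agent.AtP
open Fermat.Agent.AnJac Fermat.Agent.GalRep Fermat.Agent.S43Glue CuspForm Matrix
open WeierstrassCurve WeierstrassCurve.Affine WeierstrassCurve.Affine.Point

local notation "Qbar" => AlgebraicClosure ℚ
local notation "GQ" => Qbar ≃ₐ[ℚ] Qbar

/-- the input **FU** -/
def FUH (P : FreyPackage) (A : ValuationSubring Qbar) : Prop :=
  ∀ b : Qbar, b ≠ 0 → (∀ σ ∈ A.inertiaSubgroupIn ℚ, σ (b ^ P.p) = b ^ P.p) →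
    (∀ σ ∈ A.inertiaSubgroupIn ℚ, (∀ R : ((P.freyCurve : Affine ℚ)⁄Qbar).Point,
      P.p • R = 0 → σ • R = R) → σ b = b) → ∃ l : ℤ, A.valuation (b * (P.p : Qbar) ^ l) = 1

theorem s44_aux (P : FreyPackage) [hp : Fact P.p.Prime] [NeZero P.p] {M : ℕ} [NeZero M]
    [NeZero (P.p * M)] (hpM : ¬ P.p ∣ M)
    (hirr : GaloisRepIsIrreducible (K := Qbar) ℚ P.freyCurve P.p)
    (hmod : P.ModularRepOfLevel (P.p * M))
    {A : ValuationSubring Qbar} (hA : A.LiesOverPrime P.p)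
    [CharP (ResidueField A) P.p] [Algebra (ZMod P.p) (ResidueField A)]
    [Algebra.IsAlgebraic (ZMod P.p) (ResidueField A)]
    [IsFunctionField (ResidueField A) (modularFunctionFieldFullC (ResidueField A) M)]
    (hpic : ∀ (S : Set ℕ) (hqS : P.p ∈ S) (hSM : ∀ i : JS S, ¬ i.1 ∣ M),
      PicH (ResidueField A) P.p M hqS) (hFU : FUH P A) :
    P.ModularRepOfLevel M := by
  have hp2 : P.p ≠ 2 := by have := P.hp5; omega
  obtain ⟨ρ, hρ, ⟨e, he⟩, htr⟩ := exists_freyRep P hirr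
  let S : Set ℕ := {P.p} ∪ {ℓ | ℓ ∣ P.p * M}
  have hS : S.Finite := (Set.finite_singleton _).union ((Set.finite_le_nat (P.p * M)).subset
    fun ℓ hℓ => Nat.le_of_dvd (NeZero.pos _) hℓ)
  have hNS : ∀ q : ℕ, q.Prime → q ∣ P.p * M → q ∈ S := fun q _ hq => Or.inr hq
  have htr' : ∀ ℓ : ℕ, ℓ.Prime → P.freyCurveInt.IsGoodPrimeFor ℓ → ℓ ≠ P.p →
      ∀ A : ValuationSubring Qbar, A.LiesOverPrime ℓ → ∀ τ : GQ, A.IsFrobeniusAt τ ℓ →
        (ρ τ).trace = ((P.freyCurveInt.apOfModel ℓ : ℤ) : ZMod P.p) :=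
    fun ℓ hℓ hg hℓp A hA τ hτ => (htr ℓ hℓ hg hℓp A hA τ hτ).1
  have h := hmod_of_modularRepOfLevel P hρ htr' hmod (S := S) (Or.inl rfl) hNS
  refine modularRepOfLevel_of_hmod P hρ htr' hS (S := S) ?_
  have hSM : ∀ i : JS S, ¬ i.1 ∣ M := fun i hi => i.2.2 (hNS i.1 i.2.1 (hi.mul_left _))
  refine at_p_aux P.hp5 hpM hS (Or.inl rfl) hNS hρ.level hρ.det (hρ.span hp2) hA
    (hpic S (Or.inl rfl) hSM) (fun b hb h1 h2 => hFU b hb h1 fun σ hσ hfix => h2 σ hσ ?_) h
  -- an element acting trivially on the `p`-torsion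
  have h3 : ∀ v : Fin 2 → ZMod P.p, ρ σ *ᵥ v = v := by
    intro v
    obtain ⟨x, rfl⟩ := e.surjective v
    rw [← he σ x]
    congr 1
    apply Subtype.ext
    refine hfix (x : ((P.freyCurve : Affine ℚ)⁄Qbar).Point) ?_
    have := (Submodule.mem_torsionBy_iff _ _).mp x.2
    rwa [Nat.cast_smul_eq_nsmul] at this
  ext i j
  have h4 := congrFun (h3 (Pi.single j 1)) i
  simpa [Matrix.one_apply, Pi.single_apply] using h4

end Fermat.Agent.AtG
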