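import Fermat.Agent.AtG.Core
import Fermat.Agent.TWDia.Cyc

/-!
# Level lowering at `p`
-/

set_option autoImplicit false
set_option linter.unusedSectionVars false
set_option linter.style.haveILetI false
set_option linter.unusedVariables false
set_option synthInstance.maxHeartbeats 400000

noncomputable section

namespace Fermat.Agent.AtG

open ModularCurve Fermat.Agent.GoodRed Fermat.Agent.Models Fermat.Agent.ModFun
open Fermat.Agent.Curves AlgebraicCurve IsLocalRing Fermat.Agent.SSMod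
open Fermat.Agent.HeckeQ Fermat.Agent.Mono Fermat.Agent.MazurP Fermat.Agent.AtP
open Fermat.Agent.AnJac Fermat.Agent.GalRep Fermat.Agent.S43Glue CuspForm Matrix

local notation "Qbar" => AlgebraicClosure ℚ
local notation "GQ" => Qbar ≃ₐ[ℚ] Qbar

section Scalar

variable {k : Type*} [Field k] {G : Type*} [Group G] {V : Type*} [AddCommGroup V] [Module k V]
  {M : G →* (V →ₗ[k] V)} {ρ : G →* Matrix (Fin 2) (Fin 2) k}

/-- an element which acts as a scalar is a scalar -/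
theorem rho_eq_of_act [Nontrivial V] (h2 : (2 : k) ≠ 0)
    (hspan : Submodule.span k (Set.range ρ) = ⊤) (χ : G →* k)
    (hrel : ∀ g x, M g x + χ g • M g⁻¹ x = (ρ g).trace • x) {τ : G} {c : k}
    (hτ : ∀ x, M τ x = c • x) : ρ τ = c • (1 : Matrix (Fin 2) (Fin 2) k) := by
  set φ := MonoidAlgebra.lift k (V →ₗ[k] V) G M with hφ
  set ψ := MonoidAlgebra.lift k (Matrix (Fin 2) (Fin 2) k) G ρ with hψ
  have hsurj : Function.Surjective ψ := lift_surjective ρ hspan
  obtain ⟨y, hy0⟩ := exists_ne (0 : V)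
  by_contra hne
  set Y := ρ τ - c • (1 : Matrix (Fin 2) (Fin 2) k) with hYdef
  have hY0 : Y ≠ 0 := fun h => hne (sub_eq_zero.mp h)
  obtain ⟨i, j, hij⟩ : ∃ i j, Y i j ≠ 0 := by
    by_contra hcon
    push Not at hcon
    exact hY0 (Matrix.ext hcon)
  choose a ha using fun l : Fin 2 => hsurj (Matrix.single l i (1 : k))
  choose b hb using fun l : Fin 2 => hsurj (Matrix.single j l (Y i j)⁻¹)
  set y₀ : MonoidAlgebra k G := MonoidAlgebra.of k G τ - c • 1 with hy₀
  have hψy : ψ y₀ = Y := by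
    rw [hy₀, map_sub, map_smul, map_one, hψ, MonoidAlgebra.lift_of]
  have hz : ψ (∑ l, a l * y₀ * b l) = 1 := by
    rw [map_sum]
    simp only [map_mul, ha, hb, hψy]
    ext r s
    rw [Matrix.sum_apply, Fin.sum_univ_two]
    simp only [Matrix.single_mul_mul_single]
    fin_cases r <;> fin_cases s <;> simp [Matrix.single_apply, mul_inv_cancel₀ hij]
  have h1 := blr_rep (M := M) h2 hspan χ hrel (x := ∑ l, a l * y₀ * b l - 1) (by
    rw [← hψ, map_sub, hz, map_one, sub_self])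
  rw [← hφ, map_sub, map_one, sub_eq_zero] at h1
  have h3 := congrArg (fun f : V →ₗ[k] V => f y) h1
  simp only [Module.End.one_apply, map_sum, map_mul, LinearMap.sum_apply,
    Module.End.mul_apply] at h3
  have h4 : ∀ z, φ y₀ z = 0 := by
    intro z
    rw [hy₀, map_sub, map_smul, map_one, hφ, MonoidAlgebra.lift_of, LinearMap.sub_apply,
      LinearMap.smul_apply, Module.End.one_apply, hτ, sub_self]
  simp only [h4, map_zero, Finset.sum_const_zero] at h3
  exact hy0 h3.symm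

end Scalar

/-- the kernel of `ρ` on inertia has finite index -/
theorem finiteIndex_ker {q : ℕ} [hq : Fact q.Prime] (ρ : GQ →* Matrix (Fin 2) (Fin 2) (ZMod q))
    (I : Subgroup GQ) : ((I ⊓ ρ.toHomUnits.ker).subgroupOf I).FiniteIndex := by
  haveI : NeZero q := ⟨hq.out.ne_zero⟩
  haveI : Finite (Matrix (Fin 2) (Fin 2) (ZMod q)) := inferInstance
  haveI : ρ.toHomUnits.ker.FiniteIndex := inferInstance
  rw [Subgroup.inf_subgroupOf_left]
  infer_instance

theorem at_p_aux {q : ℕ} [hq : Fact q.Prime] [NeZero q] (hq5 : 5 ≤ q) {M : ℕ} [NeZero M]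
    [NeZero (q * M)] {S : Set ℕ} {ρ : GQ →* Matrix (Fin 2) (Fin 2) (ZMod q)}
    (hqM : ¬ q ∣ M) (hS : S.Finite) (hqS : q ∈ S)
    (hMS : ∀ r : ℕ, r.Prime → r ∣ q * M → r ∈ S) (hρ : FinLevel ρ)
    (hdet : ∀ g, (ρ g).det = chiK q (ZMod q) g)
    (hspan : Submodule.span (ZMod q) (Set.range ρ) = ⊤)
    {A : ValuationSubring Qbar} (hA : A.LiesOverPrime q)
    [CharP (ResidueField A) q] [Algebra (ZMod q) (ResidueField A)]
    [Algebra.IsAlgebraic (ZMod q) (ResidueField A)]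
    [IsFunctionField (ResidueField A) (modularFunctionFieldFullC (ResidueField A) M)]
    (hpic : PicH (ResidueField A) q M hqS)
    (hFU : ∀ b : Qbar, b ≠ 0 → (∀ σ ∈ A.inertiaSubgroupIn ℚ, σ (b ^ q) = b ^ q) →
      (∀ σ ∈ A.inertiaSubgroupIn ℚ, ρ σ = 1 → σ b = b) →
        ∃ l : ℤ, A.valuation (b * (q : Qbar) ^ l) = 1)
    (hmod : HMod ρ (q * M) S) : HMod ρ M S := by
  by_contra hlow
  have hSN : ∀ i : JS S, ¬ i.1 ∣ q * M := fun i h => i.2.2 (hMS i.1 i.2.1 h)
  have hcop : Nat.Coprime q M := (Nat.Prime.coprime_iff_not_dvd hq.out).mpr hqM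
  have h2 : (2 : ZMod q) ≠ 0 := by
    intro h
    have h1 : ((2 : ℕ) : ZMod q) = 0 := by exact_mod_cast h
    rw [ZMod.natCast_eq_zero_iff] at h1
    have := Nat.le_of_dvd two_pos h1
    omega
  obtain ⟨θ, hθ⟩ := hmod
  obtain ⟨P, hP, hP1⟩ := exists_P hSN (fun r hr h => hMS r hr (h.mul_left q)) hθ hlow
  haveI : Nontrivial (WW hSN θ) := WW_ne_bot hMS
  have hrel := TW_rel (hSN := hSN) (θ := θ) hρ hdet hS hqS hθ
  -- a prime which is not Eisenstein
  have heis : ∃ (r : ℕ) (hr : r.Prime) (hrS : r ∉ S),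
      θ (hkA (q * M) hSN (FreeAlgebra.ι ℤ ⟨r, hr, hrS⟩)) ≠ 1 + (r : ZMod q) := by
    obtain ⟨r, hr, hrS, B, hB, σ, hσ, hne⟩ := exists_prime_not_eis (p := q) (by omega) hρ hdet hspan
      hS hqS
    refine ⟨r, hr, hrS, ?_⟩
    rw [hkA_ι, ← hθ r hr _ hrS B hB σ hσ]
    exact hne
  set I := A.inertiaSubgroupIn ℚ with hI
  have hker : ∀ σ, σ ∈ ρ.toHomUnits.ker ↔ ρ σ = 1 := by
    intro σ
    rw [MonoidHom.mem_ker, Units.ext_iff, MonoidHom.coe_toHomUnits, Units.val_one]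
  have hΓW : ∀ σ ∈ I ⊓ ρ.toHomUnits.ker, ∀ x ∈ WW hSN θ,
      (KQ (q * M)).M (bL (q * M)) (pne q) σ *ᵥ x = x := by
    intro σ hσ x hx
    have h3 := act_eq_self h2 hspan (chiK q (ZMod q)) hrel ((hker σ).1 hσ.2) ⟨x, hx⟩
    have h4 := congrArg Subtype.val h3
    rw [coe_TW] at h4
    exact h4
  -- inertia acts through the cyclotomic character
  have hχ : ∀ τ ∈ I, chiK q (ZMod q) τ = 1 := by
    intro τ hτ
    obtain ⟨ζ, hζ⟩ := TWDia.exists_prim q
    set a := ((TWDia.cycM q τ : (ZMod q)ˣ) : ZMod q).val with ha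
    have ha1 : ∀ z : Qbar, z ^ q = 1 → τ z = z ^ a := fun z hz => TWDia.cycM_spec q τ hz
    have hca : chiK q (ZMod q) τ = (a : ZMod q) := chiK_spec q (ZMod q) τ hζ (ha1 ζ hζ.pow_eq_one)
    have h3 : ∀ x : WW hSN θ, TW hSN θ τ x = (a : ZMod q) • x := by
      intro x
      apply Subtype.ext
      rw [coe_TW]
      exact act_eq_smul hq5 hA hcop hqS hpic heis hP hP1 (Γ := I ⊓ ρ.toHomUnits.ker) inf_le_left
        (finiteIndex_ker ρ I) (fun b hb h1 h2 => hFU b hb h1 fun σ hσ hσ1 =>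
          h2 σ ⟨hσ, (hker σ).2 hσ1⟩) x.2 (fun σ hσ => hΓW σ hσ _ x.2) hτ ha1
    have h4 := rho_eq_of_act h2 hspan (chiK q (ZMod q)) hrel h3
    have h5 := hdet τ
    rw [h4, Matrix.det_smul, Matrix.det_one, mul_one, Fintype.card_fin, ← hca, sq] at h5
    have h6 : chiK q (ZMod q) τ ≠ 0 := by
      intro h
      have := chiK_mul_inv q (ZMod q) τ
      rw [h, zero_mul] at this
      exact zero_ne_one this
    exact mul_left_cancel₀ h6 (by rw [h5, mul_one])
  -- but the cyclotomic character is ramified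
  obtain ⟨σ, hσ, hσ1⟩ := TWDia.exists_inertia_cycM hq.out hA (-1 : (ZMod q)ˣ)
  obtain ⟨ζ, hζ⟩ := TWDia.exists_prim q
  have h7 := chiK_spec q (ZMod q) σ hζ (TWDia.cycM_spec q σ hζ.pow_eq_one)
  rw [hχ σ hσ, ZMod.natCast_zmod_val, hσ1, Units.val_neg, Units.val_one] at h7
  apply h2
  linear_combination h7

end Fermat.Agent.AtG
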