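import Fermat.Agent.MazurP.Toric2
import Fermat.Agent.AtP.NewVec

/-!
# Residues from Hecke relations (any exponent)
-/

set_option autoImplicit false
set_option linter.unusedSectionVars false
set_option linter.style.haveILetI false
set_option linter.unusedVariables false
set_option synthInstance.maxHeartbeats 400000

noncomputable section

namespace Fermat.Agent.AtG

open ModularCurve Fermat.Agent.GoodRed Fermat.Agent.Models Fermat.Agent.ModFun
open Fermat.Agent.Curves Fermat.Agent.AnJac AlgebraicCurve IsLocalRing Fermat.Agent.SSMod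
open Fermat.Agent.HeckeQ Fermat.Agent.GalRep Fermat.Agent.Mono Fermat.Agent.MazurP
open Fermat.Agent.GenusX0 (je)
open scoped Pointwise

local notation "ℒ" => LaurentSeries

section Res

variable {K κ : Type} [Field K] [Field κ] {A : ValuationSubring K} {π : A →+* κ}
  {q M : ℕ} [NeZero M] [IsLocalHom π] [hq : Fact q.Prime] [CharP κ q]
  [IsAlgClosed K] [IsAlgClosed κ] [CharZero K] [NeZero q]
  [Algebra (ZMod q) κ] [Algebra.IsAlgebraic (ZMod q) κ]

attribute [-instance] DivisionRing.toRatAlgebra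

variable {S : Set ℕ} {hπ : Function.Surjective π} (ι : K →+* ℂ) (hqM : Nat.Coprime q M)
  (hE : modularFunctionFieldFullC κ M = resField q hπ (q * M))

/-- **Residues from Hecke relations.** -/
theorem resPow_gen (hqS : q ∈ S)
    [IsFunctionField κ (modularFunctionFieldFullC κ M)]
    {p : ℕ} (hp0 : p ≠ 0) (P : FreeAlgebra ℤ (JS S))
    (hpow : ∀ {v : (ℒ κ)ˣ} (hv : (v : ℒ κ) ∈ modularFunctionFieldFullC κ M),
      (∀ 𝔭 : Place κ (modularFunctionFieldFullC κ M), (p : ℤ) ∣ 𝔭.ord ⟨v, hv⟩) →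
      ∃ g : modularFunctionFieldFullC κ M, g ≠ 0 ∧
        (op (hasPrim_κ hqS) P v : ℒ κ) = (g : ℒ κ) ^ p)
    {u f : (ℒ K)ˣ} (hum : (u : ℒ K) ∈ modularFunctionFieldFullC K (q * M))
    (hfm : (f : ℒ K) ∈ modularFunctionFieldFullC K (q * M))
    (hop : op hasPrim_field P u = u * f ^ p)
    (hso : ∀ 𝔭 : Place κ (modularFunctionFieldFullC κ M),
      (p : ℤ) ∣ so (two hπ ι hqM _ hE true) 𝔭 ⟨u, hum⟩) :
    ∃ c : K, c ≠ 0 ∧ ∃ h : modularFunctionFieldFullC κ M, h ≠ 0 ∧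
      (two hπ ι hqM _ hE true).r (algebraMap K _ c * ⟨u, hum⟩) = h ^ p := by
  set C := two hπ ι hqM _ hE with hC
  have hu0 : (⟨u, hum⟩ : modularFunctionFieldFullC K (q * M)) ≠ 0 :=
    fun h => u.ne_zero (congrArg Subtype.val h)
  obtain ⟨c, hc0, hcr⟩ := (C true).exists_scale _ hu0
  -- the scaled unit
  have hCc : (HahnSeries.C c : ℒ K) ≠ 0 := (map_ne_zero (HahnSeries.C : K →+* ℒ K)).mpr hc0
  set cu : (ℒ K)ˣ := Units.mk0 (HahnSeries.C c : ℒ K) hCc * u with hcu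
  set x : modularFunctionFieldFullC K (q * M) := algebraMap K _ c * ⟨u, hum⟩ with hx
  have hxcu : (x : ℒ K) = (cu : ℒ K) := by
    rw [hcu, Units.val_mul, Units.val_mk0, hx, MulMemClass.coe_mul, ModFun.C_eq_algebraMap]
    rfl
  set ub := (C true).r x with hub
  have hub0 : (ub : ℒ κ) ≠ 0 := fun h => hcr (Subtype.ext h)
  set v : (ℒ κ)ˣ := Units.mk0 (ub : ℒ κ) hub0 with hv
  have hvm : (v : ℒ κ) ∈ modularFunctionFieldFullC κ M := ub.2
  have hLR : LR π (cu : ℒ K) (v : ℒ κ) := by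
    rw [← hxcu]
    exact two_true_spec ι hqM hE (Res.mem_of_r_ne_zero hcr)
  obtain ⟨g, hg0, hg⟩ := hpow (v := v) hvm (fun 𝔭 => by
    have h1 := so_eq (C true) 𝔭 hcr
    have h2 := hso 𝔭
    rw [h1] at h2
    exact h2)
  have hSκ := cast_ne_zero_JS (κ := κ) hqS
  have hLR2 := LR_op hasPrim_field (hasPrim_κ hqS) (hasPrim_ring A) hSκ P hLR
  -- the constant
  obtain ⟨d, hd⟩ := op_C hasPrim_field P (c := Units.mk0 (HahnSeries.C c : ℒ K) hCc) (c₀ := c) rfl
  have hd0 : d ≠ 0 := by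
    rintro rfl
    rw [map_zero] at hd
    exact Units.ne_zero _ hd
  obtain ⟨e, he⟩ := IsAlgClosed.exists_pow_nat_eq (d / c) (Nat.pos_of_ne_zero hp0)
  set y : modularFunctionFieldFullC K (q * M) := algebraMap K _ e * ⟨f, hfm⟩ with hy
  have hopcu : (op hasPrim_field P cu : ℒ K) = ((x * y ^ p :
      modularFunctionFieldFullC K (q * M)) : ℒ K) := by
    rw [hcu, op_mul, Units.val_mul, hd, hop, MulMemClass.coe_mul, SubmonoidClass.coe_pow, hxcu,
      hcu, hy, MulMemClass.coe_mul]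
    simp only [Units.val_mul, Units.val_mk0, Units.val_pow_eq_pow_val]
    have e1 : ((algebraMap K (modularFunctionFieldFullC K (q * M)) e :
        modularFunctionFieldFullC K (q * M)) : ℒ K) = HahnSeries.C e := by
      rw [ModFun.C_eq_algebraMap]; rfl
    rw [e1, mul_pow, ← map_pow, he, map_div₀]
    field_simp
  have hr1 : (C true).r (x * y ^ p) = g ^ p := by
    refine (two_true_r ι hqM hE (y := g ^ p) ?_).2
    rw [← hopcu, SubmonoidClass.coe_pow, ← hg]
    exact hLR2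
  have hgp : g ^ p ≠ 0 := pow_ne_zero _ hg0
  have hxy : (C true).r (x * y ^ p / x) = g ^ p / ub := by
    rw [Res.r_div (Res.mem_of_r_ne_zero (by rw [hr1]; exact hgp)) hcr, hr1]
  have hx0 : x ≠ 0 := Res.ne_zero_of_r hcr
  rw [mul_div_cancel_left₀ _ hx0] at hxy
  have hne : g ^ p / ub ≠ 0 := div_ne_zero hgp hcr
  have hyO : y ∈ (C true).O := by
    refine mem_of_pow_mem' _ hp0 (Res.mem_of_r_ne_zero (x := y ^ p) ?_)
    rw [hxy]; exact hne
  rw [Res.r_pow hyO] at hxy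
  have hy0 : (C true).r y ≠ 0 := by
    intro h
    rw [h, zero_pow hp0] at hxy
    exact hne hxy.symm
  refine ⟨c, hc0, g / (C true).r y, div_ne_zero hg0 hy0, ?_⟩
  rw [div_pow, hxy, div_div_eq_mul_div, mul_div_cancel_left₀ _ hgp]

/-- the same on the other component -/
theorem resPow_gen_false (hqS : q ∈ S) (hSN : ∀ i : JS S, ¬ i.1 ∣ q * M)
    [IsFunctionField κ (modularFunctionFieldFullC κ M)]
    {p : ℕ} (hp0 : p ≠ 0) (P : FreeAlgebra ℤ (JS S))
    (hpow : ∀ {v : (ℒ κ)ˣ} (hv : (v : ℒ κ) ∈ modularFunctionFieldFullC κ M),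
      (∀ 𝔭 : Place κ (modularFunctionFieldFullC κ M), (p : ℤ) ∣ 𝔭.ord ⟨v, hv⟩) →
      ∃ g : modularFunctionFieldFullC κ M, g ≠ 0 ∧
        (op (hasPrim_κ hqS) P v : ℒ κ) = (g : ℒ κ) ^ p)
    {u f : (ℒ K)ˣ} (hum : (u : ℒ K) ∈ modularFunctionFieldFullC K (q * M))
    (hfm : (f : ℒ K) ∈ modularFunctionFieldFullC K (q * M))
    (hop : op hasPrim_field P u = u * f ^ p)
    (hso : ∀ 𝔭 : Place κ (modularFunctionFieldFullC κ M),
      (p : ℤ) ∣ so (two hπ ι hqM _ hE false) 𝔭 ⟨u, hum⟩) :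
    ∃ c : K, c ≠ 0 ∧ ∃ h : modularFunctionFieldFullC κ M, h ≠ 0 ∧
      (two hπ ι hqM _ hE false).r (algebraMap K _ c * ⟨u, hum⟩) = h ^ p := by
  have hu0 : (⟨u, hum⟩ : modularFunctionFieldFullC K (q * M)) ≠ 0 :=
    fun h => u.ne_zero (congrArg Subtype.val h)
  obtain ⟨h2, h3⟩ := op_al ι hqM hasPrim_field hSN P hum
  obtain ⟨c, hc0, h, hh0, e⟩ := resPow_gen ι hqM hE hqS hp0 P hpow (alU_mem ι hqM hum)
    (f := alU ι hqM hfm) (alU_mem ι hqM hfm) (by
      rw [h3]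
      apply Units.ext
      rw [Units.val_mul, Units.val_pow_eq_pow_val]
      have e : (⟨(op hasPrim_field P u : ℒ K), h2⟩ :
          modularFunctionFieldFullC K (q * M)) = ⟨u, hum⟩ * (⟨f, hfm⟩) ^ p := by
        apply Subtype.ext
        rw [MulMemClass.coe_mul, SubmonoidClass.coe_pow]
        show (op hasPrim_field P u : ℒ K) = (u : ℒ K) * (f : ℒ K) ^ p
        rw [hop, Units.val_mul, Units.val_pow_eq_pow_val]
      show ((al ι hqM ⟨_, h2⟩ : modularFunctionFieldFullC K (q * M)) : ℒ K) = _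
      rw [e, map_mul, map_pow, MulMemClass.coe_mul, SubmonoidClass.coe_pow]
      rfl) (fun 𝔭 => by
      rw [← al_mk ι hqM hum, ← so_false ι hqM hE 𝔭 hu0]
      exact hso 𝔭)
  refine ⟨c, hc0, h, hh0, ?_⟩
  rw [r_false, al_algebraMap_mul, al_mk ι hqM hum]
  exact e

end Res

end Fermat.Agent.AtG
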